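/-
CELL-S, role [S-OLD] (helper13): **there is no connected Hopf order on `ℤ/p` over an unramified
base, `p` odd** — the elementary replacement of Raynaud / Tate–Oort in the OLD case (R4).

`W` a domain in which `p` is a non-zero element and which is `p`-adically separated on non-zero
elements (e.g. the valuation ring `W = 𝒜 ∩ ℚ̄^{I}` of the maximal unramified extension: a DVR with
uniformiser `p`).  Let `H ⊆ Map(ℤ/p, W)` be a `W`-subalgebra which is `Δ`-stable
(`f (x + y) = ∑ i, a i x * b i y` with `a i, b i ∈ H`) and contains a non-constant function.  Then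
`H` is **not local**: some `f ∈ H` and some `x` have `f x ≢ f 0 mod p`.

Proof (no duals, no cyclotomic fields): let `S = {f ∈ H | f 0 = 0}`.  If all values of `S` are
divisible by `p`, let `m ≥ 1` be maximal with `p ^ m ∣ f x` for all `f ∈ S`, `x`.  `Δ`-stability
gives `f (x + y) ≡ f x + f y mod p ^ (2 m)`, hence `0 = f (p • x₀) ≡ p • f x₀ mod p ^ (2 m)`, which
forces `m = 1`.  Then `g / p mod p` is additive for every `g ∈ S`, and the exact telescoping
`f (p • x₀) - p • f x₀ = ∑_{j < p} ∑ i, a i (j • x₀) * b i x₀ ≡ p² (∑_{j<p} j) (…) ≡ 0 mod p³`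
(`p` odd) gives `p² ∣ f x₀`: contradiction.  Mathlib only.
-/
import Mathlib

set_option autoImplicit false
set_option linter.unusedSectionVars false

namespace Fermat.Agent.CS.Old

open Finset

variable {W : Type*} [CommRing W] [IsDomain W]

/-- `Δ`-stability of a function algebra on an additive group `C`. -/
def DeltaStable {C : Type*} [Add C] (H : Subalgebra W (C → W)) : Prop :=
  ∀ f ∈ H, ∃ (n : ℕ) (a b : Fin n → (C → W)), (∀ i, a i ∈ H) ∧ (∀ i, b i ∈ H) ∧
    ∀ x y, f (x + y) = ∑ i, a i x * b i y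

section aux

variable {C : Type*} [AddCommGroup C] {H : Subalgebra W (C → W)}

/-- the constant function `c` lies in `H`. -/
theorem const_mem (H : Subalgebra W (C → W)) (c : W) : (fun _ : C => c) ∈ H := by
  have : (fun _ : C => c) = algebraMap W (C → W) c := by
    funext x; simp
  rw [this]; exact H.algebraMap_mem c

/-- subtracting the value at `0`. -/
theorem sub_const_mem {f : C → W} (hf : f ∈ H) : (fun x => f x - f 0) ∈ H := by
  have : (fun x => f x - f 0) = f - (fun _ : C => f 0) := by funext x; rfl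
  rw [this]; exact H.sub_mem hf (const_mem H _)

/-- `Δ`-stability on the augmentation ideal `{f | f 0 = 0}`: the correction term is a sum of
products of elements of the augmentation ideal. -/
theorem delta_aug (hΔ : DeltaStable H) {f : C → W} (hf : f ∈ H) (hf0 : f 0 = 0) :
    ∃ (n : ℕ) (a b : Fin n → (C → W)), (∀ i, a i ∈ H) ∧ (∀ i, a i 0 = 0) ∧ (∀ i, b i ∈ H) ∧
      (∀ i, b i 0 = 0) ∧ ∀ x y, f (x + y) = f x + f y + ∑ i, a i x * b i y := by
  obtain ⟨n, a, b, ha, hb, hab⟩ := hΔ f hf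
  refine ⟨n, fun i x => a i x - a i 0, fun i x => b i x - b i 0, fun i => sub_const_mem (ha i),
    fun i => sub_self _, fun i => sub_const_mem (hb i), fun i => sub_self _, ?_⟩
  intro x y
  have h00 : ∑ i, a i 0 * b i 0 = 0 := by rw [← hab 0 0, add_zero, hf0]
  have hx0 : f x = ∑ i, a i x * b i 0 := by rw [← hab x 0, add_zero]
  have h0y : f y = ∑ i, a i 0 * b i y := by rw [← hab 0 y, zero_add]
  rw [hab x y, hx0, h0y]
  have : ∀ i, a i x * b i y = a i x * b i 0 + a i 0 * b i y - a i 0 * b i 0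
      + (a i x - a i 0) * (b i y - b i 0) := fun i => by ring
  rw [Finset.sum_congr rfl (fun i _ => this i), Finset.sum_add_distrib, Finset.sum_sub_distrib,
    Finset.sum_add_distrib, h00, sub_zero]

end aux

variable (p : ℕ) [hp : Fact p.Prime]

/-- **No connected Hopf order on `ℤ/p`** (`p` odd, `e = 1`). -/
theorem exists_not_dvd_sub_of_deltaStable (hp2 : p ≠ 2) (hp0 : (p : W) ≠ 0)
    (hsep : ∀ a : W, a ≠ 0 → ∃ n : ℕ, ¬ (p : W) ^ n ∣ a)
    (H : Subalgebra W (ZMod p → W)) (hΔ : DeltaStable H)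
    (hne : ∃ f ∈ H, ∃ x, f x ≠ f 0) :
    ∃ f ∈ H, ∃ x, ¬ (p : W) ∣ f x - f 0 := by
  classical
  by_contra hcon
  push Not at hcon
  -- all values of the augmentation ideal are divisible by `p`
  have hP1 : ∀ f ∈ H, f 0 = 0 → ∀ x, (p : W) ^ 1 ∣ f x := by
    intro f hf hf0 x
    have := hcon f hf x
    rwa [hf0, sub_zero, ← pow_one (p : W)] at this
  -- a nonzero value in the augmentation ideal
  obtain ⟨f₁, hf₁, x₁, hx₁⟩ := hne
  set g₁ : ZMod p → W := fun x => f₁ x - f₁ 0 with hg₁
  have hg₁H : g₁ ∈ H := sub_const_mem hf₁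
  have hg₁0 : g₁ 0 = 0 := sub_self _
  have hg₁x : g₁ x₁ ≠ 0 := sub_ne_zero.mpr hx₁
  obtain ⟨n₀, hn₀⟩ := hsep _ hg₁x
  -- `P m`: all values of the augmentation ideal are divisible by `p ^ m`
  let P : ℕ → Prop := fun m => ∀ f ∈ H, f 0 = 0 → ∀ x, (p : W) ^ m ∣ f x
  have hPn₀ : ¬ P n₀ := fun h => hn₀ (h g₁ hg₁H hg₁0 x₁)
  -- the maximal `m` with `P m`
  have hex : ∃ m, ¬ P m := ⟨n₀, hPn₀⟩
  obtain ⟨M, hMnot, hMmin⟩ : ∃ M, ¬ P M ∧ ∀ k < M, P k :=
    ⟨Nat.find hex, Nat.find_spec hex, fun k hk => by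
      by_contra h
      exact Nat.find_min hex hk h⟩
  have hM2 : 2 ≤ M := by
    by_contra h
    have h' : M = 0 ∨ M = 1 := by omega
    rcases h' with h' | h'
    · subst h'
      exact hMnot (fun f _ _ x => by simp)
    · subst h'
      exact hMnot hP1
  obtain ⟨m, rfl⟩ : ∃ m, M = m + 1 := ⟨M - 1, by omega⟩
  have hm1 : 1 ≤ m := by omega
  have hPm : P m := hMmin m (by omega)
  -- witness
  have : ∃ f ∈ H, f 0 = 0 ∧ ∃ x, ¬ (p : W) ^ (m + 1) ∣ f x := by
    by_contra h
    push Not at h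
    exact hMnot (fun f hf hf0 x => h f hf hf0 x)
  obtain ⟨f, hf, hf0, x₀, hx₀⟩ := this
  obtain ⟨n, a, b, ha, ha0, hb, hb0, hab⟩ := delta_aug hΔ hf hf0
  -- additivity modulo `p ^ (2 m)`
  have hadd : ∀ x y, (p : W) ^ (2 * m) ∣ f (x + y) - f x - f y := by
    intro x y
    rw [hab x y]
    have : f x + f y + ∑ i, a i x * b i y - f x - f y = ∑ i, a i x * b i y := by ring
    rw [this]
    refine Finset.dvd_sum (fun i _ => ?_)
    rw [two_mul, pow_add]
    exact mul_dvd_mul (hPm _ (ha i) (ha0 i) x) (hPm _ (hb i) (hb0 i) y)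
  have hmul : ∀ j : ℕ, (p : W) ^ (2 * m) ∣ f (j • x₀) - j • f x₀ := by
    intro j
    induction j with
    | zero => simp [hf0]
    | succ j ih =>
      have h1 := hadd (j • x₀) x₀
      have : f ((j + 1) • x₀) - (j + 1) • f x₀
          = (f (j • x₀ + x₀) - f (j • x₀) - f x₀) + (f (j • x₀) - j • f x₀) := by
        rw [succ_nsmul, succ_nsmul]; ring
      rw [this]
      exact dvd_add h1 ih
  have hpx : (p : ℕ) • x₀ = 0 := by
    rw [nsmul_eq_mul]; simp
  -- `p ^ (2 m) ∣ p * f x₀`
  have hkey : (p : W) ^ (2 * m) ∣ (p : W) * f x₀ := by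
    have := hmul p
    rw [hpx, hf0, zero_sub, nsmul_eq_mul] at this
    exact (dvd_neg.mp this)
  obtain ⟨u, hu⟩ := hPm f hf hf0 x₀
  -- `m = 1`
  have hm : m = 1 := by
    by_contra hne1
    have hm2 : 2 ≤ m := by omega
    apply hx₀
    -- `p ^ (m + 2) ∣ p ^ (m + 1) * u` hence `p ∣ u`
    have h2 : (p : W) ^ (m + 2) ∣ (p : W) ^ (m + 1) * u := by
      have h3 : (p : W) ^ (m + 2) ∣ (p : W) ^ (2 * m) := pow_dvd_pow _ (by omega)
      have h4 : (p : W) * f x₀ = (p : W) ^ (m + 1) * u := by rw [hu]; ring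
      rw [← h4]
      exact h3.trans hkey
    have h5 : (p : W) ∣ u := by
      have h6 : (p : W) ^ (m + 1) * (p : W) ∣ (p : W) ^ (m + 1) * u := by
        have : (p : W) ^ (m + 1) * (p : W) = (p : W) ^ (m + 2) := by ring
        rw [this]; exact h2
      exact (mul_dvd_mul_iff_left (pow_ne_zero _ hp0)).mp h6
    obtain ⟨u', rfl⟩ := h5
    exact ⟨u', by rw [hu]; ring⟩
  subst hm
  -- quotients by `p`
  have hq : ∀ g ∈ H, g 0 = 0 → ∃ gt : ZMod p → W, ∀ x, g x = (p : W) * gt x := by
    intro g hg hg0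
    have : ∀ x, ∃ c, g x = (p : W) * c := fun x => by
      have := hPm g hg hg0 x
      rwa [pow_one] at this
    choose gt hgt using this
    exact ⟨gt, hgt⟩
  -- additivity of the quotients modulo `p`, for every element of the augmentation ideal
  have haddq : ∀ g ∈ H, g 0 = 0 → ∀ gt : ZMod p → W, (∀ x, g x = (p : W) * gt x) →
      ∀ (x : ZMod p) (j : ℕ), (p : W) ∣ gt (j • x) - j • gt x := by
    intro g hg hg0 gt hgt x j
    obtain ⟨n', a', b', ha', ha0', hb', hb0', hab'⟩ := delta_aug hΔ hg hg0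
    have hadd' : ∀ x y, (p : W) ∣ gt (x + y) - gt x - gt y := by
      intro x y
      have h1 : (p : W) ^ 2 ∣ g (x + y) - g x - g y := by
        rw [hab' x y]
        have : g x + g y + ∑ i, a' i x * b' i y - g x - g y = ∑ i, a' i x * b' i y := by ring
        rw [this]
        refine Finset.dvd_sum (fun i _ => ?_)
        rw [pow_two]
        have h2 := hPm _ (ha' i) (ha0' i) x
        have h3 := hPm _ (hb' i) (hb0' i) y
        rw [pow_one] at h2 h3
        exact mul_dvd_mul h2 h3
      rw [hgt, hgt, hgt] at h1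
      have h4 : (p : W) * gt (x + y) - (p : W) * gt x - (p : W) * gt y
          = (p : W) * (gt (x + y) - gt x - gt y) := by ring
      rw [h4, pow_two] at h1
      exact (mul_dvd_mul_iff_left hp0).mp h1
    induction j with
    | zero =>
      have h0 : gt 0 = 0 := by
        have := hgt 0
        rw [hg0] at this
        exact (mul_eq_zero.mp this.symm).resolve_left hp0
      simp [h0]
    | succ j ih =>
      have h1 := hadd' (j • x) x
      have : gt ((j + 1) • x) - (j + 1) • gt x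
          = (gt (j • x + x) - gt (j • x) - gt x) + (gt (j • x) - j • gt x) := by
        rw [succ_nsmul, succ_nsmul]; ring
      rw [this]
      exact dvd_add h1 ih
  -- quotient functions of the `a i`, `b i`
  have hqa : ∀ i, ∃ gt : ZMod p → W, ∀ x, a i x = (p : W) * gt x := fun i => hq _ (ha i) (ha0 i)
  have hqb : ∀ i, ∃ gt : ZMod p → W, ∀ x, b i x = (p : W) * gt x := fun i => hq _ (hb i) (hb0 i)
  choose at' hat using hqa
  choose bt' hbt using hqb
  -- exact telescoping
  have htel : ∀ j : ℕ, f (j • x₀) - j • f x₀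
      = ∑ l ∈ Finset.range j, ∑ i, a i (l • x₀) * b i x₀ := by
    intro j
    induction j with
    | zero => simp [hf0]
    | succ j ih =>
      rw [Finset.sum_range_succ, ← ih, succ_nsmul, succ_nsmul, hab (j • x₀) x₀]
      ring
  -- each term is `p² * l * (…)` modulo `p³`
  have hterm : ∀ (l : ℕ) (i : Fin n), (p : W) ^ 3 ∣
      a i (l • x₀) * b i x₀ - (p : W) ^ 2 * ((l : W) * (at' i x₀ * bt' i x₀)) := by
    intro l i
    obtain ⟨c, hc⟩ := haddq _ (ha i) (ha0 i) (at' i) (hat i) x₀ l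
    rw [hat i (l • x₀), hbt i x₀]
    have : at' i (l • x₀) = l • at' i x₀ + (p : W) * c := by rw [← hc]; ring
    rw [this, nsmul_eq_mul]
    exact ⟨c * bt' i x₀, by ring⟩
  -- the sum of `l < p` is divisible by `p`
  have hsum : (p : W) ∣ ((∑ l ∈ Finset.range p, l : ℕ) : W) := by
    have hodd : Odd p := hp.out.odd_of_ne_two hp2
    obtain ⟨k, hk⟩ := hodd
    have h1 : ∑ l ∈ Finset.range p, l = p * k := by
      have h2 : (∑ l ∈ Finset.range p, l) * 2 = p * (p - 1) := Finset.sum_range_id_mul_two p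
      have h3 : p - 1 = 2 * k := by omega
      rw [h3] at h2
      have h4 : (∑ l ∈ Finset.range p, l) * 2 = (p * k) * 2 := by rw [h2]; ring
      exact Nat.eq_of_mul_eq_mul_right (by norm_num) h4
    rw [h1]
    push_cast
    exact dvd_mul_right _ _
  -- conclusion: `p³ ∣ p * f x₀`
  have hfinal : (p : W) ^ 3 ∣ (p : W) * f x₀ := by
    have h1 := htel p
    rw [hpx, hf0, zero_sub, nsmul_eq_mul] at h1
    have h2 : (p : W) ^ 3 ∣ ∑ l ∈ Finset.range p, ∑ i, a i (l • x₀) * b i x₀ := by
      have h3 : ∑ l ∈ Finset.range p, ∑ i, a i (l • x₀) * b i x₀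
          = ∑ l ∈ Finset.range p, ∑ i, (a i (l • x₀) * b i x₀
              - (p : W) ^ 2 * ((l : W) * (at' i x₀ * bt' i x₀)))
            + (p : W) ^ 2 * (((∑ l ∈ Finset.range p, l : ℕ) : W) * ∑ i, at' i x₀ * bt' i x₀) := by
        push_cast
        rw [Finset.sum_mul, Finset.mul_sum, ← Finset.sum_add_distrib]
        refine Finset.sum_congr rfl (fun l _ => ?_)
        rw [Finset.mul_sum, Finset.mul_sum, ← Finset.sum_add_distrib]
        refine Finset.sum_congr rfl (fun i _ => ?_)
        ring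
      rw [h3]
      refine dvd_add (Finset.dvd_sum (fun l _ => Finset.dvd_sum (fun i _ => hterm l i))) ?_
      obtain ⟨c, hc⟩ := hsum
      rw [hc]
      exact ⟨c * ∑ i, at' i x₀ * bt' i x₀, by ring⟩
    rw [← h1] at h2
    exact dvd_neg.mp h2
  -- hence `p² ∣ f x₀`
  apply hx₀
  have h6 : (p : W) * (p : W) ^ 2 ∣ (p : W) * f x₀ := by
    have : (p : W) * (p : W) ^ 2 = (p : W) ^ 3 := by ring
    rw [this]; exact hfinal
  have := (mul_dvd_mul_iff_left hp0).mp h6
  simpa using this

end Fermat.Agent.CS.Old
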